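import Fermat.Agent.GW.LocalFinal

/-!
# Tate's local duality theorem, abstract form

`LocIn 𝓛 χ` collects the properties of the Galois group `G` of a local field and its mod `p`
cyclotomic character `χ` which are needed; `M`, `N` are finite dimensional discrete
representations in perfect duality with values in `k(χ)`.

* `perf11` : `H¹(G, M) × H¹(G, N) → H²(G, k(χ)) ≅ k` is perfect;
* `perf02` : `H⁰(G, N) × H²(G, M) → H²(G, k(χ)) ≅ k` is perfect.
-/

set_option autoImplicit false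

noncomputable section

open Module

namespace Fermat.Agent.Cor.TateLocal

open Fermat.Agent.PT Fermat.Agent.GW

variable {k : Type} [Field k] {G : Type} [Group G] {𝓛 : LevelSys G} {χ : G →* kˣ}

/-- The properties of the absolute Galois group of a local field used for the duality theorem. -/
structure LocIn (𝓛 : LevelSys G) (χ : G →* kˣ) : Prop where
  rex : PlaceData.RightExact k 𝓛
  ker : χ.ker ∈ 𝓛
  one : finrank k (H2 𝓛 (chiRep χ)) = 1
  dim : ∃ W₀ ∈ 𝓛, ∀ W ∈ 𝓛, W ≤ W₀ →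
    FiniteDimensional k (H2 (𝓛.restrict W) (trivRep k ↥W)) ∧
    finrank k (H2 (𝓛.restrict W) (trivRep k ↥W)) ≤ 1
  symb : ∀ W ∈ 𝓛, W ≤ χ.ker → SymbNondeg 𝓛 (chiRep χ) W
  fin : ∀ {M : Type} [AddCommGroup M] [Module k M] [FiniteDimensional k M]
    (ρ : Representation k G M), Discrete 𝓛 ρ → HFin 𝓛 ρ

variable {M : Type} [AddCommGroup M] [Module k M] {N : Type} [AddCommGroup N] [Module k N]
variable {ρ : Representation k G M} {σ : Representation k G N}

lemma perf_of_isPerfPair (B : M →ₗ[k] N →ₗ[k] k) [B.IsPerfPair] : Perf B where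
  inj := fun m h => (LinearMap.IsPerfPair.bijective_left B).1 (by
    rw [map_zero]
    exact LinearMap.ext h)
  surj := fun z => (LinearMap.IsPerfPair.bijective_left B).2 z

lemma bilin_flip {B : M →ₗ[k] N →ₗ[k] k} (hB : Bilin ρ σ (chiRep χ) B) :
    Bilin σ ρ (chiRep χ) B.flip := fun g n m => hB g m n

/-- `[a] ∪ [b]` is the class of `(g, h) ↦ B (a g) (σ g (b h))`. -/
lemma cup11_class (hσ : Discrete 𝓛 σ) (B : M →ₗ[k] N →ₗ[k] k) (hB : Bilin ρ σ (chiRep χ) B)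
    (a : ↥(Z1 𝓛 ρ)) (b : ↥(Z1 𝓛 σ)) : ∃ c : ↥(Z2 𝓛 (chiRep χ)),
      (∀ q, c.1 q = B (a.1 q.1) (σ q.1 (b.1 q.2))) ∧
      cup11 hσ B hB (H1mk 𝓛 ρ a) (H1mk 𝓛 σ b) = H2mk 𝓛 (chiRep χ) c :=
  ⟨cupZ hσ B hB a b, fun _ => rfl, rfl⟩

namespace LocIn

variable (h : LocIn 𝓛 χ)

include h

/-- `H²(G, k(χ))` is isomorphic to `k`. -/
theorem nonempty_inv : Nonempty (H2 𝓛 (chiRep χ) ≃ₗ[k] k) := by
  have h1 : Module.Finite k (H2 𝓛 (chiRep χ)) :=
    Module.finite_of_finrank_pos (by rw [h.one]; exact one_pos)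
  exact ⟨LinearEquiv.ofFinrankEq _ _ (by rw [h.one, finrank_self])⟩

omit h in
lemma ne_zero (inv : H2 𝓛 (chiRep χ) ≃ₗ[k] k) : inv.toLinearMap ≠ 0 := fun h0 => by
  have h1 := LinearMap.congr_fun h0 (inv.symm 1)
  have h2 : inv (inv.symm 1) = 0 := h1
  rw [inv.apply_symm_apply] at h2
  exact one_ne_zero h2

variable [FiniteDimensional k M] [FiniteDimensional k N]

theorem injective11 (inv : H2 𝓛 (chiRep χ) ≃ₗ[k] k) {B : M →ₗ[k] N →ₗ[k] k} (hp : Perf B)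
    (hB : Bilin ρ σ (chiRep χ) B) (hρ : Discrete 𝓛 ρ) (hσ : Discrete 𝓛 σ) :
    Function.Injective ((cup11 hσ B hB).compr₂ inv.toLinearMap) := by
  rw [injective_iff_map_eq_zero]
  intro x hx
  exact h1_nondeg_chi h.rex (ne_zero inv) h.ker h.one h.dim h.symb hp hB hρ hσ x
    fun y => LinearMap.congr_fun hx y

/-- **Local duality in degree `(1, 1)`.** -/
theorem perf11 (inv : H2 𝓛 (chiRep χ) ≃ₗ[k] k) (B : M →ₗ[k] N →ₗ[k] k) [B.IsPerfPair]
    (hB : Bilin ρ σ (chiRep χ) B) (hρ : Discrete 𝓛 ρ) (hσ : Discrete 𝓛 σ) :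
    ((cup11 hσ B hB).compr₂ inv.toLinearMap).IsPerfPair := by
  have f1 : Module.Finite k (H1 𝓛 ρ) := (h.fin ρ hρ).h1
  have f2 : Module.Finite k (H1 𝓛 σ) := (h.fin σ hσ).h1
  have i1 := h.injective11 inv (perf_of_isPerfPair B) hB hρ hσ
  have i2 := h.injective11 inv (perf_of_isPerfPair B.flip) (bilin_flip hB) hσ hρ
  have e1 : finrank k (H1 𝓛 σ →ₗ[k] k) = finrank k (H1 𝓛 σ) := Subspace.dual_finrank_eq
  have e2 : finrank k (H1 𝓛 ρ →ₗ[k] k) = finrank k (H1 𝓛 ρ) := Subspace.dual_finrank_eq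
  have l1 := LinearMap.finrank_le_finrank_of_injective i1
  have l2 := LinearMap.finrank_le_finrank_of_injective i2
  have e3 : finrank k (H1 𝓛 ρ) = finrank k (H1 𝓛 σ →ₗ[k] k) := by omega
  exact LinearMap.IsPerfPair.of_bijective _
    ⟨i1, (LinearMap.injective_iff_surjective_of_finrank_eq_finrank e3).1 i1⟩

/-- The two cohomology groups in degree one have the same dimension. -/
theorem finrank_H1_eq (B : M →ₗ[k] N →ₗ[k] k) [B.IsPerfPair]
    (hB : Bilin ρ σ (chiRep χ) B) (hρ : Discrete 𝓛 ρ) (hσ : Discrete 𝓛 σ) :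
    finrank k (H1 𝓛 ρ) = finrank k (H1 𝓛 σ) := by
  obtain ⟨inv⟩ := h.nonempty_inv
  have f1 : Module.Finite k (H1 𝓛 ρ) := (h.fin ρ hρ).h1
  have f2 : Module.Finite k (H1 𝓛 σ) := (h.fin σ hσ).h1
  have i1 := h.injective11 inv (perf_of_isPerfPair B) hB hρ hσ
  have i2 := h.injective11 inv (perf_of_isPerfPair B.flip) (bilin_flip hB) hσ hρ
  have e1 : finrank k (H1 𝓛 σ →ₗ[k] k) = finrank k (H1 𝓛 σ) := Subspace.dual_finrank_eq
  have e2 : finrank k (H1 𝓛 ρ →ₗ[k] k) = finrank k (H1 𝓛 ρ) := Subspace.dual_finrank_eq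
  have l1 := LinearMap.finrank_le_finrank_of_injective i1
  have l2 := LinearMap.finrank_le_finrank_of_injective i2
  omega

end LocIn

/-! ### Degree `(0, 2)` -/

/-- The invariant elements of `N` give homomorphisms `M → k(χ)`. -/
def toHomG (B : M →ₗ[k] N →ₗ[k] k) (hB : Bilin ρ σ (chiRep χ) B) :
    ↥σ.invariants →ₗ[k] ↥(homG χ ρ) where
  toFun n := ⟨B.flip n.1, fun g m => by
    have h1 := hB g m n.1
    rw [n.2 g] at h1
    exact h1⟩
  map_add' x y := Subtype.ext (map_add B.flip _ _)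
  map_smul' c x := Subtype.ext (map_smul B.flip _ _)

lemma toHomG_apply (B : M →ₗ[k] N →ₗ[k] k) (hB : Bilin ρ σ (chiRep χ) B) (n : ↥σ.invariants)
    (m : M) : (toHomG B hB n).1 m = B m n.1 := rfl

/-- For a perfect pairing this is an isomorphism. -/
def equivHomG (B : M →ₗ[k] N →ₗ[k] k) [B.IsPerfPair] (hB : Bilin ρ σ (chiRep χ) B) :
    ↥σ.invariants ≃ₗ[k] ↥(homG χ ρ) :=
  LinearEquiv.ofBijective (toHomG B hB) (by
    have hb := LinearMap.IsPerfPair.bijective_right B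
    constructor
    · intro x y hxy
      exact Subtype.ext (hb.1 (congrArg Subtype.val hxy))
    · rintro ⟨f, hf⟩
      obtain ⟨n, rfl⟩ := hb.2 f
      refine ⟨⟨n, fun g => ?_⟩, rfl⟩
      apply hb.1
      refine LinearMap.ext fun m => ?_
      have h1 := hB g (ρ g⁻¹ m) n
      have h2 : ρ g (ρ g⁻¹ m) = m := by
        rw [← Module.End.mul_apply, ← map_mul, mul_inv_cancel, map_one, Module.End.one_apply]
      rw [h2] at h1
      have h3 := hf g (ρ g⁻¹ m)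
      rw [h2] at h3
      exact h1.trans h3.symm)

/-- The action of equivariant homomorphisms `M → k(χ)` on `H²`. -/
def hom02 (𝓛 : LevelSys G) (χ : G →* kˣ) (ρ : Representation k G M) :
    ↥(homG χ ρ) →ₗ[k] H2 𝓛 ρ →ₗ[k] H2 𝓛 (chiRep χ) where
  toFun f := H2coef 𝓛 f.1 (homG_equivar χ ρ f.2)
  map_add' f f' := by
    refine LinearMap.ext fun x => ?_
    obtain ⟨y, rfl⟩ := H2mk_surjective x
    rfl
  map_smul' c f := by
    refine LinearMap.ext fun x => ?_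
    obtain ⟨y, rfl⟩ := H2mk_surjective x
    rfl

/-- The cup product `H⁰(G, N) × H²(G, M) → H²(G, k(χ))`. -/
def cup02 (𝓛 : LevelSys G) (B : M →ₗ[k] N →ₗ[k] k) (hB : Bilin ρ σ (chiRep χ) B) :
    ↥σ.invariants →ₗ[k] H2 𝓛 ρ →ₗ[k] H2 𝓛 (chiRep χ) :=
  hom02 𝓛 χ ρ ∘ₗ toHomG B hB

/-- `n ∪ [c]` is the class of `(g, h) ↦ B (c (g, h)) n`. -/
lemma cup02_mk (B : M →ₗ[k] N →ₗ[k] k) (hB : Bilin ρ σ (chiRep χ) B) (n : ↥σ.invariants)
    (c : ↥(Z2 𝓛 ρ)) : ∃ c' : ↥(Z2 𝓛 (chiRep χ)), (∀ q, c'.1 q = B (c.1 q) n.1) ∧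
      cup02 𝓛 B hB n (H2mk 𝓛 ρ c) = H2mk 𝓛 (chiRep χ) c' :=
  ⟨_, fun _ => rfl, rfl⟩

/-- **Local duality in degree `(0, 2)`.** -/
theorem LocIn.perf02 (h : LocIn 𝓛 χ) [FiniteDimensional k M] [FiniteDimensional k N]
    (inv : H2 𝓛 (chiRep χ) ≃ₗ[k] k) (B : M →ₗ[k] N →ₗ[k] k) [B.IsPerfPair]
    (hB : Bilin ρ σ (chiRep χ) B) (hρ : Discrete 𝓛 ρ) :
    ((cup02 𝓛 B hB).compr₂ inv.toLinearMap).IsPerfPair := by
  have f0 : FiniteDimensional k ↥(homG χ ρ) := FiniteDimensional.finiteDimensional_submodule _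
  have i1 := lpair_injective (inv := inv.toLinearMap) h.rex (LocIn.ne_zero inv) hρ
  have i2 : Function.Injective (lpair inv.toLinearMap ρ).flip := by
    rw [injective_iff_map_eq_zero]
    intro z hz
    exact loc_inj h.rex (LocIn.ne_zero inv) h.ker h.dim hρ z fun f => LinearMap.congr_fun hz f
  have hP : (lpair inv.toLinearMap ρ).IsPerfPair := LinearMap.IsPerfPair.of_injective i1 i2
  have e : (cup02 𝓛 B hB).compr₂ inv.toLinearMap =
      (lpair inv.toLinearMap ρ).compl₁₂ (equivHomG B hB).toLinearMap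
        (LinearEquiv.refl k (H2 𝓛 ρ)).toLinearMap := rfl
  rw [e]
  exact LinearMap.IsPerfPair.compl₁₂ _ (equivHomG B hB) (LinearEquiv.refl k (H2 𝓛 ρ))

end Fermat.Agent.Cor.TateLocal
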