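import Fermat.Agent.Corollaries.TateLocal.Abstract

/-!
# Tate's local duality theorem for the absolute Galois group of `ℚ_q`

`p` is an odd prime, `q` any prime (`q = p` included), `GLoc q` the Galois group of the algebraic
closure `PadicAlgCl q` of `ℚ_q`, `omegaLoc p q` its cyclotomic character mod `p`.  All
representations are finite dimensional over `ZMod p` and discrete (`discrete_iff`); `H⁰` are the
invariants, `H¹` and `H²` are defined with level-constant (= continuous) cochains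
(`Fermat.Agent.PT.H1`, `H2`, level system `locLevels q` = the open subgroups).

* `finite_H0`, `finite_H1`, `finite_H2` : the cohomology is finite;
* `nonempty_invariant` : `H²(ℚ_q, μ_p) ≅ ℤ/p`;
* `tate_duality_one`, `tate_duality_zero`, `tate_duality_two` : for `M`, `N` in perfect duality
  with values in `μ_p` the cup products `Hⁱ(M) × H²⁻ⁱ(N) → H²(μ_p) ≅ ℤ/p` are perfect pairings;
* `finrank_H2_eq`, `finrank_H1_eq_dual` : the dimensions;
* `tateDual` : the Tate dual `M^*(1) = Hom(M, μ_p)`, and the same results for it.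
-/

set_option autoImplicit false

noncomputable section

open Module

namespace Fermat.Agent.Cor.TateLocal

open Fermat.Agent.PT Fermat.Agent.GW Fermat.Agent.CFTLocal Fermat.Agent.CFT.Bridge ExtCitation

section Basic

variable {q : ℕ} [hq : Fact q.Prime]

/-- The absolute Galois group of `ℚ_q`. -/
abbrev GLoc (q : ℕ) [Fact q.Prime] : Type := PadicAlgCl q ≃ₐ[ℚ_[q]] PadicAlgCl q

/-- The level subgroups are the open subgroups. -/
theorem mem_locLevels_iff {U : Subgroup (GLoc q)} : U ∈ locLevels q ↔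
    ∃ E : IntermediateField ℚ_[q] (PadicAlgCl q), FiniteDimensional ℚ_[q] E ∧
      E.fixingSubgroup ≤ U := mem_galLevels

/-- A representation is discrete if every vector is fixed by the Galois group of a finite
extension of `ℚ_q`. -/
theorem discrete_iff {k M : Type} [Field k] [AddCommGroup M] [Module k M]
    {ρ : Representation k (GLoc q) M} : Discrete (locLevels q) ρ ↔
    ∀ m : M, ∃ E : IntermediateField ℚ_[q] (PadicAlgCl q), FiniteDimensional ℚ_[q] E ∧
      ∀ g ∈ E.fixingSubgroup, ρ g m = m := by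
  constructor
  · intro h m
    obtain ⟨U, hU, hm⟩ := h m
    obtain ⟨E, hE, hEU⟩ := mem_galLevels.mp hU
    exact ⟨E, hE, fun g hg => hm g (hEU hg)⟩
  · intro h m
    obtain ⟨E, hE, hm⟩ := h m
    exact ⟨E.fixingSubgroup, mem_galLevels.mpr ⟨E, hE, le_rfl⟩, hm⟩

end Basic

variable {p q : ℕ} [hp : Fact p.Prime] [hq : Fact q.Prime]

lemma ker_omegaLoc_mem : (omegaLoc p q).ker ∈ locLevels q := by
  obtain ⟨ζ, hζ⟩ := Fermat.Agent.PT.Frozen.exists_primitive p
  have h : (cycloChar p).ker ∈ galLevels ℚ (AlgebraicClosure ℚ) := by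
    rw [Fermat.Agent.PT.Frozen.ker_cycloChar hζ]
    exact ⟨IntermediateField.adjoin ℚ {ζ}, inferInstance, le_rfl⟩
  have h2 := LevelSys.compat_comap (𝓛 := galLevels ℚ (AlgebraicClosure ℚ))
    (localGaloisToGlobal q) _ h
  rw [MonoidHom.comap_ker, comap_localGaloisToGlobal_galLevels] at h2
  exact h2

lemma levFin_local (hp2 : p ≠ 2) : LevFin p (locLevels q) := by
  obtain ⟨ζ, hζ⟩ := exists_primitiveRoot p q
  refine ⟨(cycField ζ).fixingSubgroup, ?_, fun U hU hUle => ?_⟩
  · exact ⟨cycField ζ, inferInstance, le_rfl⟩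
  · exact hfin_level hζ hU (fun g hg => by
      have := hUle hg
      rw [IntermediateField.mem_fixingSubgroup_iff] at this
      exact this ζ (mem_cycField ζ)) hp2 _ (fun _ _ => rfl)

/-- The Galois group of `ℚ_q` has the properties used in the duality theorem. -/
theorem locIn (hp2 : p ≠ 2) : LocIn (k := ZMod p) (locLevels q) (omegaLoc p q) := by
  obtain ⟨ζ, hζ⟩ := Fermat.Agent.PT.Frozen.exists_primitive p
  have hζ' : IsPrimitiveRoot (padicEmbedding q ζ) p := prim_padicEmbedding hζ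
  exact
    { rex := rightExact_local hp2
      ker := ker_omegaLoc_mem
      one := finrank_H2_omega hζ' (omegaLoc_spec hζ) hp2
      dim := loc_dim_local hp2
      symb := fun W hW hWk => symbNondeg_local hp2 hζ' (omegaLoc_spec hζ) hW fun g hg => by
        have : Fact (1 < p) := ⟨hp.out.one_lt⟩
        rw [omegaLoc_spec hζ g, MonoidHom.mem_ker.1 (hWk hg), Units.val_one, ZMod.val_one,
          pow_one]
      fin := fun ρ hρ => hfin_of_levels (rightEx_of (rightExact_local hp2)) (levFin_local hp2)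
        ρ hρ }

section Main

variable {M : Type} [AddCommGroup M] [Module (ZMod p) M] [FiniteDimensional (ZMod p) M]
variable {N : Type} [AddCommGroup N] [Module (ZMod p) N] [FiniteDimensional (ZMod p) N]
variable {ρ : Representation (ZMod p) (GLoc q) M} {σ : Representation (ZMod p) (GLoc q) N}

/-! ### Finiteness -/

omit [FiniteDimensional (ZMod p) M] in
variable (ρ) in
theorem finite_H0 [FiniteDimensional (ZMod p) M] : Module.Finite (ZMod p) ρ.invariants :=
  inferInstance

theorem finite_H1 (hp2 : p ≠ 2) (hρ : Discrete (locLevels q) ρ) :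
    Module.Finite (ZMod p) (PT.H1 (locLevels q) ρ) := ((locIn hp2).fin ρ hρ).h1

theorem finite_H2 (hp2 : p ≠ 2) (hρ : Discrete (locLevels q) ρ) :
    Module.Finite (ZMod p) (PT.H2 (locLevels q) ρ) := ((locIn hp2).fin ρ hρ).h2

/-- **`H²(ℚ_q, μ_p)` is isomorphic to `ℤ/p`.** -/
theorem nonempty_invariant (hp2 : p ≠ 2) :
    Nonempty (PT.H2 (locLevels q) (chiRep (omegaLoc p q)) ≃ₗ[ZMod p] ZMod p) :=
  (locIn hp2).nonempty_inv

/-! ### Duality -/

omit [FiniteDimensional (ZMod p) M] [FiniteDimensional (ZMod p) N] in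
/-- The pairing `B` is equivariant with values in `μ_p`. -/
theorem bilin_iff {B : M →ₗ[ZMod p] N →ₗ[ZMod p] ZMod p} :
    Bilin ρ σ (chiRep (omegaLoc p q)) B ↔ ∀ (g : GLoc q) (m : M) (n : N),
      B (ρ g m) (σ g n) = (omegaLoc p q g : ZMod p) * B m n := Iff.rfl

variable (inv : PT.H2 (locLevels q) (chiRep (omegaLoc p q)) ≃ₗ[ZMod p] ZMod p)
  (B : M →ₗ[ZMod p] N →ₗ[ZMod p] ZMod p) [B.IsPerfPair]
  (hB : Bilin ρ σ (chiRep (omegaLoc p q)) B)

/-- **Tate's local duality theorem, `H¹ × H¹`.** -/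
theorem tate_duality_one (hp2 : p ≠ 2) (hρ : Discrete (locLevels q) ρ)
    (hσ : Discrete (locLevels q) σ) :
    ((cup11 hσ B hB).compr₂ inv.toLinearMap).IsPerfPair :=
  (locIn hp2).perf11 inv B hB hρ hσ

/-- **Tate's local duality theorem, `H⁰ × H²`.** -/
theorem tate_duality_zero (hp2 : p ≠ 2) (hρ : Discrete (locLevels q) ρ) :
    ((cup02 (locLevels q) B hB).compr₂ inv.toLinearMap).IsPerfPair :=
  (locIn hp2).perf02 inv B hB hρ

/-- **Tate's local duality theorem, `H² × H⁰`**: the same with the roles of `M` and `N`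
exchanged. -/
theorem tate_duality_two (hp2 : p ≠ 2) (hσ : Discrete (locLevels q) σ) :
    ((cup02 (locLevels q) B.flip (bilin_flip hB)).compr₂ inv.toLinearMap).IsPerfPair :=
  (locIn hp2).perf02 inv B.flip (bilin_flip hB) hσ

/-! ### Dimensions -/

include hB

/-- `dim H²(ℚ_q, M) = dim H⁰(ℚ_q, N)`. -/
theorem finrank_H2_eq (hp2 : p ≠ 2) (hρ : Discrete (locLevels q) ρ) :
    finrank (ZMod p) (PT.H2 (locLevels q) ρ) = finrank (ZMod p) σ.invariants := by
  obtain ⟨inv⟩ := nonempty_invariant (p := p) (q := q) hp2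
  have h := tate_duality_zero inv B hB hp2 hρ
  have f2 := finite_H2 hp2 hρ
  have e1 : finrank (ZMod p) (PT.H2 (locLevels q) ρ →ₗ[ZMod p] ZMod p) =
      finrank (ZMod p) (PT.H2 (locLevels q) ρ) := Subspace.dual_finrank_eq
  rw [← e1]
  exact (LinearEquiv.finrank_eq (LinearEquiv.ofBijective _ h.bijective_left)).symm

/-- `dim H¹(ℚ_q, M) = dim H¹(ℚ_q, N)`. -/
theorem finrank_H1_eq_dual (hp2 : p ≠ 2) (hρ : Discrete (locLevels q) ρ)
    (hσ : Discrete (locLevels q) σ) :
    finrank (ZMod p) (PT.H1 (locLevels q) ρ) = finrank (ZMod p) (PT.H1 (locLevels q) σ) :=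
  (locIn hp2).finrank_H1_eq B hB hρ hσ

end Main

/-! ### The Tate dual `M^*(1) = Hom(M, μ_p)` -/

section TateDual

variable {M : Type} [AddCommGroup M] [Module (ZMod p) M] [FiniteDimensional (ZMod p) M]
variable {ρ : Representation (ZMod p) (GLoc q) M}

omit [FiniteDimensional (ZMod p) M] in
variable (ρ) in
/-- The Tate dual `M^*(1) = Hom(M, μ_p)`. -/
abbrev tateDual : Representation (ZMod p) (GLoc q) (Module.Dual (ZMod p) M) :=
  dualT (omegaLoc p q) ρ

omit [FiniteDimensional (ZMod p) M] in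
theorem tateDual_apply (g : GLoc q) (f : Module.Dual (ZMod p) M) (m : M) :
    tateDual ρ g f m = (omegaLoc p q g : ZMod p) * f (ρ g⁻¹ m) := dualT_apply _ _ g f m

theorem discrete_tateDual (hρ : Discrete (locLevels q) ρ) :
    Discrete (locLevels q) (tateDual ρ) := dualT_discrete hρ ker_omegaLoc_mem

instance isPerfPair_evBil : (evBil (ZMod p) M).IsPerfPair := LinearMap.IsPerfPair.id

/-- **Tate's local duality theorem** for `M^*(1)` and `M`, `H¹ × H¹`. -/
theorem tate_duality_dual_one (hp2 : p ≠ 2)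
    (inv : PT.H2 (locLevels q) (chiRep (omegaLoc p q)) ≃ₗ[ZMod p] ZMod p)
    (hρ : Discrete (locLevels q) ρ) :
    ((cup11 hρ (evBil (ZMod p) M) (evBil_bilin (omegaLoc p q) ρ)).compr₂
      inv.toLinearMap).IsPerfPair :=
  tate_duality_one inv _ _ hp2 (discrete_tateDual hρ) hρ

/-- `dim H²(ℚ_q, M) = dim H⁰(ℚ_q, M^*(1))`. -/
theorem finrank_H2_eq_tateDual (hp2 : p ≠ 2) (hρ : Discrete (locLevels q) ρ) :
    finrank (ZMod p) (PT.H2 (locLevels q) ρ) = finrank (ZMod p) (tateDual ρ).invariants :=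
  finrank_H2_eq (evBil (ZMod p) M).flip (bilin_flip (evBil_bilin (omegaLoc p q) ρ)) hp2 hρ

/-- `dim H²(ℚ_q, M^*(1)) = dim H⁰(ℚ_q, M)`. -/
theorem finrank_H2_tateDual (hp2 : p ≠ 2) (hρ : Discrete (locLevels q) ρ) :
    finrank (ZMod p) (PT.H2 (locLevels q) (tateDual ρ)) = finrank (ZMod p) ρ.invariants :=
  finrank_H2_eq (evBil (ZMod p) M) (evBil_bilin (omegaLoc p q) ρ) hp2 (discrete_tateDual hρ)

/-- `dim H¹(ℚ_q, M^*(1)) = dim H¹(ℚ_q, M)`. -/
theorem finrank_H1_tateDual (hp2 : p ≠ 2) (hρ : Discrete (locLevels q) ρ) :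
    finrank (ZMod p) (PT.H1 (locLevels q) (tateDual ρ)) =
      finrank (ZMod p) (PT.H1 (locLevels q) ρ) :=
  finrank_H1_eq_dual (evBil (ZMod p) M) (evBil_bilin (omegaLoc p q) ρ) hp2
    (discrete_tateDual hρ) hρ

end TateDual

end Fermat.Agent.Cor.TateLocal
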